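/-
Ree / Feit–Lyndon–Scott inequality and parity for three permutations with product one
generating a transitive group.  Pure Mathlib.  (S24 long shot, module H.)

Main results (namespace `Fermat.Agent.S24.Scott`):

* `orbits σ`            : number of orbits of `Subgroup.zpowers σ` on `X`
* `finrank_ker_D`       : `finrank ker (1 - L σ) = orbits σ`
* `ree_le`              : `orbits a + orbits b + orbits c ≤ card X + 2`
* `sign_eq`             : `sign σ = (-1) ^ (card X + orbits σ)`
* `parity`              : `Even (card X + orbits a + orbits b + orbits c)`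
* `exists_genus_perm`   : `∃ g, 2 * g + orbits a + orbits b + orbits c = card X + 2`
* `exists_genus`        : the same for a group action
-/
import Mathlib

set_option autoImplicit false

namespace Fermat.Agent.S24.Scott

open Module

section Perm

variable {X : Type*}

/-- Number of orbits of the cyclic group generated by `σ`. -/
noncomputable def orbits (σ : Equiv.Perm X) : ℕ :=
  Nat.card (MulAction.orbitRel.Quotient (Subgroup.zpowers σ) X)

/-- The linear map `f ↦ f ∘ σ` on `X → ℚ`. -/
noncomputable def L (σ : Equiv.Perm X) : (X → ℚ) →ₗ[ℚ] (X → ℚ) :=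
  LinearMap.funLeft ℚ ℚ σ

@[simp] lemma L_apply (σ : Equiv.Perm X) (f : X → ℚ) (p : X) : L σ f p = f (σ p) := rfl

lemma L_comp (σ τ : Equiv.Perm X) : L σ ∘ₗ L τ = L (τ * σ) := by
  ext f p
  simp

lemma L_one : L (1 : Equiv.Perm X) = LinearMap.id := by
  ext f p
  simp

/-- `D σ = 1 - L σ`. -/
noncomputable def D (σ : Equiv.Perm X) : (X → ℚ) →ₗ[ℚ] (X → ℚ) :=
  LinearMap.id - L σ

@[simp] lemma D_apply (σ : Equiv.Perm X) (f : X → ℚ) (p : X) : D σ f p = f p - f (σ p) := rfl

lemma mem_ker_D {σ : Equiv.Perm X} {f : X → ℚ} :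
    f ∈ LinearMap.ker (D σ) ↔ ∀ p, f (σ p) = f p := by
  rw [LinearMap.mem_ker]
  constructor
  · intro h p
    have := congrFun h p
    simp only [D_apply, Pi.zero_apply] at this
    linarith
  · intro h
    ext p
    simp [h p]

lemma apply_zpow_of_mem_ker_D {σ : Equiv.Perm X} {f : X → ℚ}
    (hf : f ∈ LinearMap.ker (D σ)) (k : ℤ) (p : X) : f ((σ ^ k) p) = f p := by
  rw [mem_ker_D] at hf
  induction k using Int.induction_on generalizing p with
  | zero => simp
  | succ n ih =>
    rw [zpow_add, zpow_one, Equiv.Perm.mul_apply, ih, hf]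
  | pred n ih =>
    rw [zpow_sub, zpow_one, Equiv.Perm.mul_apply, ih]
    have := hf (σ⁻¹ p)
    simpa using this.symm

lemma apply_eq_of_orbitRel {σ : Equiv.Perm X} {f : X → ℚ}
    (hf : f ∈ LinearMap.ker (D σ)) {p q : X}
    (h : (MulAction.orbitRel (Subgroup.zpowers σ) X) p q) : f p = f q := by
  rw [MulAction.orbitRel_apply] at h
  obtain ⟨⟨g, hg⟩, rfl⟩ := h
  obtain ⟨k, rfl⟩ := Subgroup.mem_zpowers_iff.mp hg
  exact apply_zpow_of_mem_ker_D hf k q

/-- Pullback along the quotient map to the orbit space. -/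
noncomputable def pull (σ : Equiv.Perm X) :
    (MulAction.orbitRel.Quotient (Subgroup.zpowers σ) X → ℚ) →ₗ[ℚ] (X → ℚ) :=
  LinearMap.funLeft ℚ ℚ (Quotient.mk (MulAction.orbitRel (Subgroup.zpowers σ) X))

lemma pull_injective (σ : Equiv.Perm X) : Function.Injective (pull σ) := by
  intro g₁ g₂ h
  funext q
  induction q using Quotient.inductionOn with
  | _ p => exact congrFun h p

lemma range_pull (σ : Equiv.Perm X) : LinearMap.range (pull σ) = LinearMap.ker (D σ) := by
  apply le_antisymm
  · rintro _ ⟨g, rfl⟩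
    rw [mem_ker_D]
    intro p
    show g _ = g _
    congr 1
    apply Quotient.sound
    exact MulAction.orbitRel_apply.mpr ⟨⟨σ, Subgroup.mem_zpowers σ⟩, rfl⟩
  · intro f hf
    refine ⟨Quotient.lift f (fun p q h => apply_eq_of_orbitRel hf h), ?_⟩
    funext p
    rfl

variable [Fintype X]

lemma finrank_ker_D (σ : Equiv.Perm X) : finrank ℚ (LinearMap.ker (D σ)) = orbits σ := by
  classical
  rw [← range_pull, LinearMap.finrank_range_of_inj (pull_injective σ)]
  let _ : Fintype (MulAction.orbitRel.Quotient (Subgroup.zpowers σ) X) := Fintype.ofFinite _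
  rw [Module.finrank_fintype_fun_eq_card, orbits, Nat.card_eq_fintype_card]

lemma finrank_range_D_add (σ : Equiv.Perm X) :
    finrank ℚ (LinearMap.range (D σ)) + orbits σ = Fintype.card X := by
  rw [← finrank_ker_D, LinearMap.finrank_range_add_finrank_ker, Module.finrank_fintype_fun_eq_card]

end Perm

section Ree

lemma finrank_span_singleton_le_one {V : Type*} [AddCommGroup V] [Module ℚ V] (v : V) :
    finrank ℚ (Submodule.span ℚ {v}) ≤ 1 := by
  by_cases hv : v = 0
  · subst hv
    rw [Submodule.span_zero_singleton, finrank_bot]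
    exact Nat.zero_le 1
  · rw [finrank_span_singleton hv]

variable {X : Type*} [Fintype X] [DecidableEq X]

/-- Standard basis vector of `X → ℚ`. -/
noncomputable def e (p : X) : X → ℚ := Pi.single p 1

lemma e_apply (p x : X) : e p x = if x = p then 1 else 0 := by
  simp [e, Pi.single_apply]

lemma L_e (σ : Equiv.Perm X) (p : X) : L σ (e p) = e (σ⁻¹ p) := by
  funext x
  simp only [L_apply, e_apply]
  have : σ x = p ↔ x = σ⁻¹ p := by
    constructor
    · rintro rfl; simp
    · rintro rfl; simp
  simp [this]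

lemma e_sub_mem_range_D (σ : Equiv.Perm X) (p : X) :
    e (σ p) - e p ∈ LinearMap.range (D σ) := by
  refine ⟨e (σ p), ?_⟩
  simp [D, L_e]

variable (a b c : Equiv.Perm X)

/-- The map `δ`. -/
noncomputable def del :
    (X → ℚ) →ₗ[ℚ]
      (LinearMap.range (D c) × LinearMap.range (D b) × LinearMap.range (D a)) :=
  (D c).rangeRestrict.prod ((D b).rangeRestrict.prod (D a).rangeRestrict)

/-- The map `β`. -/
noncomputable def bet :
    (LinearMap.range (D c) × LinearMap.range (D b) × LinearMap.range (D a)) →ₗ[ℚ] (X → ℚ) :=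
  (LinearMap.range (D c)).subtype.coprod
    ((L c ∘ₗ (LinearMap.range (D b)).subtype).coprod
      (L c ∘ₗ L b ∘ₗ (LinearMap.range (D a)).subtype))

lemma bet_apply (u : LinearMap.range (D c)) (v : LinearMap.range (D b))
    (w : LinearMap.range (D a)) :
    bet a b c (u, v, w) = (u : X → ℚ) + (L c (v : X → ℚ) + L c (L b (w : X → ℚ))) := by
  simp [bet]

lemma del_apply (f : X → ℚ) :
    del a b c f = (⟨D c f, ⟨f, rfl⟩⟩, ⟨D b f, ⟨f, rfl⟩⟩, ⟨D a f, ⟨f, rfl⟩⟩) := rfl

lemma bet_comp_del (habc : a * b * c = 1) : bet a b c ∘ₗ del a b c = 0 := by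
  apply LinearMap.ext
  intro f
  funext p
  have h : ∀ x, a (b (c x)) = x := fun x => by
    have := congrArg (fun σ : Equiv.Perm X => σ x) habc
    simpa [Equiv.Perm.mul_apply] using this
  rw [LinearMap.comp_apply, del_apply, bet_apply]
  simp [h]

lemma range_D_c_le : LinearMap.range (D c) ≤ LinearMap.range (bet a b c) := by
  rintro _ ⟨f, rfl⟩
  refine ⟨(⟨D c f, ⟨f, rfl⟩⟩, 0, 0), ?_⟩
  simp [bet_apply]

lemma range_D_b_le : LinearMap.range (D b) ≤ LinearMap.range (bet a b c) := by
  rintro _ ⟨f, rfl⟩
  -- D b f = L c (D b f) + D c (D b f)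
  have h1 : L c (D b f) ∈ LinearMap.range (bet a b c) :=
    ⟨(0, ⟨D b f, ⟨f, rfl⟩⟩, 0), by simp [bet_apply]⟩
  have h2 : D c (D b f) ∈ LinearMap.range (bet a b c) :=
    range_D_c_le a b c ⟨_, rfl⟩
  have : D b f = L c (D b f) + D c (D b f) := by
    simp [D]
  rw [this]
  exact Submodule.add_mem _ h1 h2

lemma range_D_a_le : LinearMap.range (D a) ≤ LinearMap.range (bet a b c) := by
  rintro _ ⟨f, rfl⟩
  set w := D a f with hw
  have h1 : L c (L b w) ∈ LinearMap.range (bet a b c) :=
    ⟨(0, 0, ⟨w, ⟨f, rfl⟩⟩), by simp [bet_apply]⟩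
  have h2 : D c (L b w) ∈ LinearMap.range (bet a b c) :=
    range_D_c_le a b c ⟨_, rfl⟩
  have h3 : D b w ∈ LinearMap.range (bet a b c) :=
    range_D_b_le a b c ⟨_, rfl⟩
  have : w = L c (L b w) + D c (L b w) + D b w := by
    simp [D]
  rw [this]
  exact Submodule.add_mem _ (Submodule.add_mem _ h1 h2) h3

variable {a b c}

lemma e_sub_mem_range_bet
    {g : Equiv.Perm X} (hg : g ∈ Subgroup.closure ({a, b} : Set (Equiv.Perm X))) :
    ∀ p : X, e (g p) - e p ∈ LinearMap.range (bet a b c) := by
  induction hg using Subgroup.closure_induction with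
  | mem x hx =>
    intro p
    rcases hx with rfl | rfl
    · exact range_D_a_le x b c (e_sub_mem_range_D x p)
    · exact range_D_b_le a x c (e_sub_mem_range_D x p)
  | one => intro p; simp
  | mul x y _ _ hx hy =>
    intro p
    have : e ((x * y) p) - e p = (e (x (y p)) - e (y p)) + (e (y p) - e p) := by
      simp [Equiv.Perm.mul_apply]
    rw [this]
    exact Submodule.add_mem _ (hx (y p)) (hy p)
  | inv x _ hx =>
    intro p
    have : e (x⁻¹ p) - e p = -(e (x (x⁻¹ p)) - e (x⁻¹ p)) := by
      simp
    rw [this]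
    exact Submodule.neg_mem _ (hx (x⁻¹ p))

lemma apply_eq_of_mem_closure {f : X → ℚ}
    (ha : f ∈ LinearMap.ker (D a)) (hb : f ∈ LinearMap.ker (D b))
    {g : Equiv.Perm X} (hg : g ∈ Subgroup.closure ({a, b} : Set (Equiv.Perm X))) :
    ∀ p : X, f (g p) = f p := by
  induction hg using Subgroup.closure_induction with
  | mem x hx =>
    rcases hx with rfl | rfl
    · exact mem_ker_D.mp ha
    · exact mem_ker_D.mp hb
  | one => intro p; simp
  | mul x y _ _ hx hy =>
    intro p
    rw [Equiv.Perm.mul_apply, hx, hy]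
  | inv x _ hx =>
    intro p
    have := hx (x⁻¹ p)
    simpa using this.symm

/-- **Ree's inequality** (Feit–Lyndon–Scott), in rank form. -/
theorem two_mul_card_le (habc : a * b * c = 1)
    (htrans : ∀ p q : X, ∃ g ∈ Subgroup.closure ({a, b} : Set (Equiv.Perm X)), g p = q)
    (p₀ : X) :
    2 * Fintype.card X ≤
      finrank ℚ (LinearMap.range (D a)) + finrank ℚ (LinearMap.range (D b)) +
        finrank ℚ (LinearMap.range (D c)) + 2 := by
  -- kernel of δ is at most one-dimensional
  have hker : LinearMap.ker (del a b c) ≤ Submodule.span ℚ {(fun _ => 1 : X → ℚ)} := by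
    intro f hf
    rw [LinearMap.mem_ker] at hf
    have hfb : D b f = 0 := by
      have := congrArg (fun t => ((t.2.1 : LinearMap.range (D b)) : X → ℚ)) hf
      simpa [del] using this
    have hfa : D a f = 0 := by
      have := congrArg (fun t => ((t.2.2 : LinearMap.range (D a)) : X → ℚ)) hf
      simpa [del] using this
    rw [Submodule.mem_span_singleton]
    refine ⟨f p₀, ?_⟩
    funext q
    obtain ⟨g, hg, rfl⟩ := htrans p₀ q
    simp [apply_eq_of_mem_closure (LinearMap.mem_ker.mpr hfa) (LinearMap.mem_ker.mpr hfb) hg p₀]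
  have hker' : finrank ℚ (LinearMap.ker (del a b c)) ≤ 1 := by
    calc finrank ℚ (LinearMap.ker (del a b c))
        ≤ finrank ℚ (Submodule.span ℚ {(fun _ => 1 : X → ℚ)}) := Submodule.finrank_mono hker
      _ ≤ 1 := finrank_span_singleton_le_one _
  -- range of β has codimension at most one
  have htop : (⊤ : Submodule ℚ (X → ℚ)) ≤
      LinearMap.range (bet a b c) ⊔ Submodule.span ℚ {e p₀} := by
    intro f _
    have hf : f = ∑ p, f p • (e p - e p₀) + (∑ p, f p) • e p₀ := by
      funext x
      simp only [Pi.add_apply, Finset.sum_apply, Pi.smul_apply, Pi.sub_apply, smul_eq_mul,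
        e_apply, mul_sub, Finset.sum_sub_distrib, Finset.sum_mul]
      simp
    rw [hf]
    refine Submodule.add_mem _ (Submodule.mem_sup_left ?_) (Submodule.mem_sup_right ?_)
    · refine Submodule.sum_mem _ (fun p _ => Submodule.smul_mem _ _ ?_)
      obtain ⟨g, hg, rfl⟩ := htrans p₀ p
      exact e_sub_mem_range_bet hg p₀
    · exact Submodule.smul_mem _ _ (Submodule.mem_span_singleton_self _)
  have hrange : Fintype.card X ≤ finrank ℚ (LinearMap.range (bet a b c)) + 1 := by
    have h1 : finrank ℚ (X → ℚ) ≤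
        finrank ℚ ↥(LinearMap.range (bet a b c) ⊔ Submodule.span ℚ {e p₀}) := by
      rw [← finrank_top ℚ (X → ℚ)]
      exact Submodule.finrank_mono htop
    have h2 := Submodule.finrank_add_le_finrank_add_finrank (LinearMap.range (bet a b c))
      (Submodule.span ℚ {e p₀})
    have h3 : finrank ℚ (Submodule.span ℚ {e p₀}) ≤ 1 := finrank_span_singleton_le_one _
    rw [Module.finrank_fintype_fun_eq_card] at h1
    omega
  -- rank-nullity
  have hδ := LinearMap.finrank_range_add_finrank_ker (del a b c)
  have hβ := LinearMap.finrank_range_add_finrank_ker (bet a b c)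
  rw [Module.finrank_fintype_fun_eq_card] at hδ
  rw [Module.finrank_prod, Module.finrank_prod] at hβ
  have hle : finrank ℚ (LinearMap.range (del a b c)) ≤ finrank ℚ (LinearMap.ker (bet a b c)) :=
    Submodule.finrank_mono (LinearMap.range_le_ker_iff.mpr (bet_comp_del a b c habc))
  omega

/-- **Ree's inequality**: three permutations with product one generating a transitive group
have at most `|X| + 2` cycles altogether. -/
theorem ree_le (habc : a * b * c = 1)
    (htrans : ∀ p q : X, ∃ g ∈ Subgroup.closure ({a, b} : Set (Equiv.Perm X)), g p = q)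
    (p₀ : X) :
    orbits a + orbits b + orbits c ≤ Fintype.card X + 2 := by
  have h := two_mul_card_le habc htrans p₀
  have ha := finrank_range_D_add a
  have hb := finrank_range_D_add b
  have hc := finrank_range_D_add c
  omega

end Ree

section Parity

variable {X : Type*}

lemma orbitRel_zpowers_iff (σ : Equiv.Perm X) {x y : X} :
    MulAction.orbitRel (Subgroup.zpowers σ) X x y ↔ σ.SameCycle y x := by
  rw [MulAction.orbitRel_apply, MulAction.mem_orbit_iff]
  constructor
  · rintro ⟨⟨g, hg⟩, rfl⟩
    obtain ⟨k, rfl⟩ := Subgroup.mem_zpowers_iff.mp hg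
    exact ⟨k, rfl⟩
  · rintro ⟨k, rfl⟩
    exact ⟨⟨σ ^ k, Subgroup.mem_zpowers_iff.mpr ⟨k, rfl⟩⟩, rfl⟩

lemma orbits_inv (σ : Equiv.Perm X) : orbits σ⁻¹ = orbits σ := by
  unfold orbits
  rw [Subgroup.zpowers_inv]

variable [Fintype X] [DecidableEq X] (σ : Equiv.Perm X)

/-- A complete invariant of the `σ`-orbit of a point. -/
noncomputable def code (x : X) : X ⊕ Equiv.Perm X :=
  if σ x = x then Sum.inl x else Sum.inr (σ.cycleOf x)

lemma code_eq_iff {x y : X} : code σ x = code σ y ↔ σ.SameCycle y x := by
  unfold code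
  by_cases hx : σ x = x <;> by_cases hy : σ y = y
  · simp only [hx, hy, if_true, Sum.inl.injEq]
    constructor
    · rintro rfl; exact Equiv.Perm.SameCycle.refl _ _
    · intro h; exact (h.eq_of_left hy).symm
  · simp only [hx, hy, if_true, if_false, reduceCtorEq, false_iff]
    intro h
    exact hy (h.apply_eq_self_iff.mpr hx)
  · simp only [hx, hy, if_true, if_false, reduceCtorEq, false_iff]
    intro h
    exact hx (h.apply_eq_self_iff.mp hy)
  · simp only [hx, hy, if_false, Sum.inr.injEq]
    constructor
    · intro h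
      have hx' : x ∈ (σ.cycleOf x).support := by
        rw [Equiv.Perm.mem_support_cycleOf_iff]
        exact ⟨Equiv.Perm.SameCycle.refl _ _, Equiv.Perm.mem_support.mpr hx⟩
      rw [h, Equiv.Perm.mem_support_cycleOf_iff] at hx'
      exact hx'.1
    · intro h
      exact (h.cycleOf_eq).symm

lemma orbitRel_eq_ker_code :
    MulAction.orbitRel (Subgroup.zpowers σ) X = Setoid.ker (code σ) := by
  ext x y
  rw [orbitRel_zpowers_iff, Setoid.ker_def, code_eq_iff]

lemma image_code :
    Finset.univ.image (code σ) =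
      (Finset.univ.filter (fun x => σ x = x)).disjSum σ.cycleFactorsFinset := by
  ext z
  rcases z with x | c
  · rw [Finset.inl_mem_disjSum]
    simp only [Finset.mem_image, Finset.mem_univ, true_and, Finset.mem_filter]
    constructor
    · rintro ⟨y, hy⟩
      unfold code at hy
      by_cases h : σ y = y
      · simp only [h, if_true, Sum.inl.injEq] at hy
        rw [← hy]; exact h
      · simp [h] at hy
    · intro h
      exact ⟨x, by simp [code, h]⟩
  · rw [Finset.inr_mem_disjSum]
    simp only [Finset.mem_image, Finset.mem_univ, true_and]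
    constructor
    · rintro ⟨y, hy⟩
      unfold code at hy
      by_cases h : σ y = y
      · simp [h] at hy
      · simp only [h, if_false, Sum.inr.injEq] at hy
        rw [← hy, Equiv.Perm.cycleOf_mem_cycleFactorsFinset_iff]
        exact Equiv.Perm.mem_support.mpr h
    · intro hc
      have hcyc := (Equiv.Perm.mem_cycleFactorsFinset_iff.mp hc).1
      obtain ⟨y, hy, -⟩ := hcyc
      have hy' : y ∈ c.support := Equiv.Perm.mem_support.mpr hy
      have hyσ : y ∈ σ.support := Equiv.Perm.mem_cycleFactorsFinset_support_le hc hy'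
      refine ⟨y, ?_⟩
      have := Equiv.Perm.cycle_is_cycleOf hy' hc
      simp [code, Equiv.Perm.mem_support.mp hyσ, this]

lemma orbits_eq_card_image : orbits σ = (Finset.univ.image (code σ)).card := by
  unfold orbits MulAction.orbitRel.Quotient
  rw [orbitRel_eq_ker_code]
  rw [Nat.card_congr (Setoid.quotientKerEquivRange (code σ))]
  rw [Nat.card_coe_set_eq, ← Set.image_univ, ← Finset.coe_univ, ← Finset.coe_image,
    Set.ncard_coe_finset]

/-- Number of orbits = number of fixed points + number of nontrivial cycles. -/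
lemma orbits_add_card_support :
    orbits σ + σ.support.card = Fintype.card X + σ.cycleFactorsFinset.card := by
  rw [orbits_eq_card_image, image_code, Finset.card_disjSum]
  have h : (Finset.univ.filter (fun x => σ x = x)).card + σ.support.card = Fintype.card X := by
    have : σ.support = Finset.univ.filter (fun x => ¬ σ x = x) := by
      ext x; simp
    rw [this, ← Finset.card_univ (α := X)]
    exact Finset.card_filter_add_card_filter_not (s := Finset.univ) (fun x => σ x = x)
  omega

lemma orbits_le_card : orbits σ ≤ Fintype.card X := by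
  rw [orbits_eq_card_image, ← Finset.card_univ (α := X)]
  exact Finset.card_image_le

/-- The sign of a permutation in terms of its number of orbits. -/
theorem sign_eq : Equiv.Perm.sign σ = (-1) ^ (Fintype.card X + orbits σ) := by
  rw [Equiv.Perm.sign_of_cycleType, Equiv.Perm.sum_cycleType]
  have h1 : Multiset.card σ.cycleType = σ.cycleFactorsFinset.card := by
    rw [Equiv.Perm.cycleType_def, Multiset.card_map]; rfl
  rw [h1]
  have h2 := orbits_add_card_support σ
  have h3 : Fintype.card X + orbits σ + 2 * σ.support.card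
      = 2 * Fintype.card X + (σ.support.card + σ.cycleFactorsFinset.card) := by omega
  have h4 : ((-1 : ℤˣ) ^ (Fintype.card X + orbits σ)) * ((-1) ^ (2 * σ.support.card))
      = ((-1) ^ (2 * Fintype.card X)) * (-1) ^ (σ.support.card + σ.cycleFactorsFinset.card) := by
    rw [← pow_add, ← pow_add, h3]
  simpa [pow_mul] using h4.symm

variable {a b c : Equiv.Perm X}

/-- Parity: for `a b c = 1`, the total number of cycles is congruent to `|X|` mod 2. -/
theorem parity (habc : a * b * c = 1) :
    Even (Fintype.card X + orbits a + orbits b + orbits c) := by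
  have h := congrArg Equiv.Perm.sign habc
  rw [map_mul, map_mul, map_one, sign_eq a, sign_eq b, sign_eq c, ← pow_add, ← pow_add] at h
  have h' := (neg_one_pow_eq_one_iff_even (R := ℤˣ) (by decide)).mp h
  obtain ⟨k, hk⟩ := h'
  exact ⟨k - Fintype.card X, by omega⟩

/-- **Riemann–Hurwitz genus is a natural number** (permutation form): if `a b c = 1` and
`⟨a, b⟩` is transitive on the finite set `X`, then
`|X| + 2 - (#cycles a + #cycles b + #cycles c)` is a non-negative even integer. -/
theorem exists_genus_perm (habc : a * b * c = 1)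
    (htrans : ∀ p q : X, ∃ g ∈ Subgroup.closure ({a, b} : Set (Equiv.Perm X)), g p = q) :
    ∃ g : ℕ, 2 * g + orbits a + orbits b + orbits c = Fintype.card X + 2 := by
  obtain ⟨k, hk⟩ := parity habc
  rcases isEmpty_or_nonempty X with hX | ⟨⟨p₀⟩⟩
  · have h0 : Fintype.card X = 0 := Fintype.card_eq_zero
    have ha := orbits_le_card a
    have hb := orbits_le_card b
    have hc := orbits_le_card c
    exact ⟨1, by omega⟩
  · have hle := ree_le habc htrans p₀
    exact ⟨Fintype.card X + 1 - k, by omega⟩

end Parity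

section Action

variable {G : Type*} [Group G] {X : Type*} [MulAction G X]

/-- Group-action form: if `x, y` generate `G`, and `G` acts transitively on the finite set `X`,
then `|X| + 2 - (o(x) + o(y) + o(x y))` is a non-negative even integer, where `o(g)` is the
number of orbits of `g` on `X`. -/
theorem exists_genus [Finite X] [MulAction.IsPretransitive G X] (x y : G)
    (hgen : Subgroup.closure ({x, y} : Set G) = ⊤) :
    ∃ g : ℕ, 2 * g + orbits (MulAction.toPerm x : Equiv.Perm X)
        + orbits (MulAction.toPerm y : Equiv.Perm X)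
        + orbits (MulAction.toPerm (x * y) : Equiv.Perm X) = Nat.card X + 2 := by
  classical
  have : Fintype X := Fintype.ofFinite X
  set φ : G →* Equiv.Perm X := MulAction.toPermHom G X with hφ
  have habc : φ x * φ y * (φ (x * y))⁻¹ = 1 := by
    rw [map_mul]; exact mul_inv_cancel _
  have htrans : ∀ p q : X, ∃ g ∈ Subgroup.closure ({φ x, φ y} : Set (Equiv.Perm X)), g p = q := by
    intro p q
    obtain ⟨γ, hγ⟩ := MulAction.exists_smul_eq G p q
    refine ⟨φ γ, ?_, hγ⟩
    have h1 : φ γ ∈ Subgroup.map φ (Subgroup.closure ({x, y} : Set G)) :=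
      Subgroup.mem_map_of_mem φ (by rw [hgen]; exact Subgroup.mem_top γ)
    rw [MonoidHom.map_closure, Set.image_pair] at h1
    exact h1
  obtain ⟨g, hg⟩ := exists_genus_perm habc htrans
  rw [orbits_inv] at hg
  refine ⟨g, ?_⟩
  rw [Nat.card_eq_fintype_card]
  exact hg

end Action

section SL2Z

open scoped MatrixGroups

/-- Specialisation to `SL₂(ℤ)` acting on the cosets of a finite-index subgroup `Γ`:
`|X| + 2 - o(S) - o(ST) - o(T)` is a non-negative even integer `2g`. -/
theorem exists_genus_SL2Z (Γ : Subgroup SL(2, ℤ)) [Γ.FiniteIndex] :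
    ∃ g : ℕ, (Nat.card (SL(2, ℤ) ⧸ Γ) : ℤ) + 2
        - orbits (MulAction.toPerm ModularGroup.S : Equiv.Perm (SL(2, ℤ) ⧸ Γ))
        - orbits (MulAction.toPerm (ModularGroup.S * ModularGroup.T) :
            Equiv.Perm (SL(2, ℤ) ⧸ Γ))
        - orbits (MulAction.toPerm ModularGroup.T : Equiv.Perm (SL(2, ℤ) ⧸ Γ))
      = 2 * (g : ℤ) := by
  have : Finite (SL(2, ℤ) ⧸ Γ) := inferInstance
  obtain ⟨g, hg⟩ := exists_genus (G := SL(2, ℤ)) (X := SL(2, ℤ) ⧸ Γ)
    ModularGroup.S ModularGroup.T SpecialLinearGroup.SL2Z_generators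
  refine ⟨g, ?_⟩
  have := congrArg (Nat.cast : ℕ → ℤ) hg
  push_cast at this
  linarith

/-- The same for `Γ₀(N)`. -/
theorem exists_genus_Gamma0 (N : ℕ) [NeZero N] :
    ∃ g : ℕ, (Nat.card (SL(2, ℤ) ⧸ CongruenceSubgroup.Gamma0 N) : ℤ) + 2
        - orbits (MulAction.toPerm ModularGroup.S :
            Equiv.Perm (SL(2, ℤ) ⧸ CongruenceSubgroup.Gamma0 N))
        - orbits (MulAction.toPerm (ModularGroup.S * ModularGroup.T) :
            Equiv.Perm (SL(2, ℤ) ⧸ CongruenceSubgroup.Gamma0 N))
        - orbits (MulAction.toPerm ModularGroup.T :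
            Equiv.Perm (SL(2, ℤ) ⧸ CongruenceSubgroup.Gamma0 N))
      = 2 * (g : ℤ) :=
  exists_genus_SL2Z _

end SL2Z

end Fermat.Agent.S24.Scott
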