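import Fermat.Agent.S24.Defs
import Fermat.Agent.S24.Scott

/-!
# S24 — the Riemann–Hurwitz number is a non-negative even integer
(parity via signs of permutations, non-negativity via Scott's lemma / Ree's theorem)

INTERFACE FILE (statement frozen by helper984); proof by helper883 (`Fermat.Agent.S24.Scott`).
-/

set_option autoImplicit false

noncomputable section

open scoped MatrixGroups

namespace Fermat.Agent.S24

variable (N : ℕ) [NeZero N]

theorem exists_genus_nat :
    ∃ g : ℕ, (Nat.card (XX N) : ℤ) + 2 - numOrbits (permOf N ModularGroup.S)
        - numOrbits (permOf N (ModularGroup.S * ModularGroup.T))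
        - numOrbits (permOf N ModularGroup.T) = 2 * (g : ℤ) :=
  Scott.exists_genus_Gamma0 N

end Fermat.Agent.S24
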